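import Fermat.Agent.Regular.MinusFormula
import Mathlib.NumberTheory.NumberField.InfinitePlace.TotallyRealComplex
import Mathlib.NumberTheory.NumberField.Units.Regulator
import Mathlib.NumberTheory.NumberField.DedekindZeta

/-!
# The regulator and the residue of a totally real Galois field

The regulator is `|det (log |φ (σ u_k)|)|`, `σ ≠ 1`, for any complex embedding `φ`; the residue of
the zeta function is `2^(n-1) h R / √d`.
-/

set_option autoImplicit false
set_option linter.unusedSectionVars false
set_option linter.style.haveILetI false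

noncomputable section

open NumberField
open scoped Classical

namespace FA.PadicClassNumber

variable {E : Type*} [Field E] [NumberField E] [IsGalois ℚ E] [IsTotallyReal E]

/-- The place of a conjugate of an embedding. -/
def placeOf (φ : E →+* ℂ) (σ : Gal(E/ℚ)) : InfinitePlace E :=
  InfinitePlace.mk (φ.comp (σ : E ≃ₐ[ℚ] E).toRingEquiv.toRingHom)

theorem placeOf_apply (φ : E →+* ℂ) (σ : Gal(E/ℚ)) (x : E) : placeOf φ σ x = ‖φ (σ x)‖ := rfl

theorem card_gal_eq_card_places :
    Fintype.card Gal(E/ℚ) = Fintype.card (InfinitePlace E) := by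
  rw [← Nat.card_eq_fintype_card, IsGalois.card_aut_eq_finrank, IsTotallyReal.finrank,
    InfinitePlace.card_eq_nrRealPlaces_add_nrComplexPlaces, IsTotallyReal.nrComplexPlaces_eq_zero,
    add_zero]

theorem placeOf_bijective (φ : E →+* ℂ) : Function.Bijective (placeOf φ) := by
  refine (Fintype.bijective_iff_injective_and_card _).2 ⟨fun σ τ h => AlgEquiv.ext fun x => ?_,
    card_gal_eq_card_places⟩
  refine φ.injective ?_
  rcases InfinitePlace.mk_eq_iff.1 h with h1 | h1
  · exact DFunLike.congr_fun h1 x
  · rw [ComplexEmbedding.isReal_iff.1 (IsTotallyReal.complexEmbedding_isReal _)] at h1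
    exact DFunLike.congr_fun h1 x

theorem rank_add_one : Units.rank E + 1 = Fintype.card Gal(E/ℚ) := by
  have := Fintype.card_pos (α := Gal(E/ℚ))
  rw [Units.rank, ← card_gal_eq_card_places]
  omega

/-- **The regulator from one embedding and the Galois group.** -/
theorem regulator_eq (φ : E →+* ℂ) (e : Fin (Units.rank E) ≃ {σ : Gal(E/ℚ) // σ ≠ 1}) :
    |(Matrix.of fun k j : Fin (Units.rank E) =>
        Real.log ‖φ ((e j : Gal(E/ℚ)) ((Units.fundSystem E k : 𝓞 E) : E))‖).det| =
      Units.regulator E := by
  let P : {σ : Gal(E/ℚ) // σ ≠ 1} ≃ {w : InfinitePlace E // w ≠ placeOf φ 1} :=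
    (Equiv.ofBijective _ (placeOf_bijective φ)).subtypeEquiv fun σ => by
      simp [(placeOf_bijective φ).1.eq_iff]
  rw [Units.regulator_eq_det E (placeOf φ 1) (e.trans P).symm,
    ← Matrix.det_reindex_self (e.trans P).symm]
  congr 2
  ext k j
  simp only [Matrix.reindex_apply, Matrix.submatrix_apply, Matrix.of_apply, Equiv.symm_symm,
    Equiv.symm_apply_apply, IsTotallyReal.mult_eq, Nat.cast_one, one_mul]
  rfl

omit [IsGalois ℚ E] in
theorem discr_pos : 0 < discr E := by
  have h := sign_discr E
  rw [IsTotallyReal.nrComplexPlaces_eq_zero, pow_zero] at h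
  exact Int.sign_eq_one_iff_pos.1 h

omit [IsGalois ℚ E] in
/-- **The residue.** -/
theorem residue_eq : dedekindZeta_residue E =
    2 ^ Units.rank E * Units.regulator E * classNumber E / Real.sqrt (discr E : ℝ) := by
  have hpos : 0 < InfinitePlace.nrRealPlaces E := by
    rw [← IsTotallyReal.finrank]
    exact Module.finrank_pos
  have hr : InfinitePlace.nrRealPlaces E = Units.rank E + 1 := by
    rw [Units.rank, InfinitePlace.card_eq_nrRealPlaces_add_nrComplexPlaces,
      IsTotallyReal.nrComplexPlaces_eq_zero]
    omega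
  have hd : (0 : ℝ) < (discr E : ℝ) := by exact_mod_cast discr_pos
  rw [dedekindZeta_residue_def, IsTotallyReal.nrComplexPlaces_eq_zero, pow_zero, mul_one,
    FA.Regular.torsionOrder_eq_two_of_real hpos, hr, abs_of_pos hd, Nat.cast_ofNat, pow_succ]
  field_simp

end FA.PadicClassNumber
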