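import Fermat.Agent.PadicClassNumber.CyclotomicUnit
import Fermat.Agent.PadicClassNumber.Regulator
import Fermat.Agent.GrossRegulator.IwasawaLog

/-!
# The algebraic numbers in `ℂ_p` and their two logarithms

`AlgNum p` has an embedding `toC` in `ℂ`, Iwasawa's logarithm `logPadic` and `x ↦ log |toC x|`,
`logComplex`; characters with algebraic values descend to it. For a totally real subfield of
`ℚ(ζ_N)` the characters are even.
-/

set_option autoImplicit false
set_option linter.unusedSectionVars false
set_option linter.style.haveILetI false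

noncomputable section

open NumberField
open FA.GrossRegulator (iwasawaLog)
open scoped Classical

namespace FA.PadicClassNumber

variable (p : ℕ) [hp : Fact p.Prime]

/-- The algebraic numbers in `ℂ_p`. -/
abbrev AlgNum : IntermediateField ℚ ℂ_[p] := algebraicClosure ℚ ℂ_[p]

instance isAlgebraic_algNum : Algebra.IsAlgebraic ℚ (AlgNum p) := ⟨fun x => by
  obtain ⟨P, hP0, hP⟩ := mem_algebraicClosure_iff.1 x.2
  refine ⟨P, hP0, Subtype.ext ?_⟩
  show (algebraicClosure ℚ ℂ_[p]).val (Polynomial.aeval x P) = 0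
  rw [← Polynomial.aeval_algHom_apply]
  exact hP⟩

/-- The inclusion in `ℂ_p`. -/
def toPadic : AlgNum p →+* ℂ_[p] := (AlgNum p).val.toRingHom

/-- An embedding in `ℂ`. -/
def toC : AlgNum p →+* ℂ := (IsAlgClosed.lift : AlgNum p →ₐ[ℚ] ℂ).toRingHom

theorem isAlgebraic_toPadic (x : AlgNum p) : IsAlgebraic ℚ (toPadic p x) :=
  mem_algebraicClosure_iff.1 x.2

/-- Iwasawa's logarithm. -/
def logPadic : LogMap (AlgNum p) ℂ_[p] where
  emb := toPadic p
  log x := iwasawaLog p (toPadic p x)
  log_mul x y hx hy := by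
    obtain ⟨a, b, ha⟩ := FA.GrossRegulator.exists_near_one ((map_ne_zero (toPadic p)).2 hx)
      (isAlgebraic_toPadic p x)
    obtain ⟨c, d, hc⟩ := FA.GrossRegulator.exists_near_one ((map_ne_zero (toPadic p)).2 hy)
      (isAlgebraic_toPadic p y)
    rw [map_mul]
    exact (FA.GrossRegulator.iwasawaLog_mul ha hc).2

/-- The complex logarithm of the absolute value. -/
def logComplex : LogMap (AlgNum p) ℂ where
  emb := toC p
  log x := (Real.log ‖toC p x‖ : ℂ)
  log_mul x y hx hy := by
    rw [map_mul, norm_mul, Real.log_mul (norm_ne_zero_iff.2 ((map_ne_zero _).2 hx))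
      (norm_ne_zero_iff.2 ((map_ne_zero _).2 hy)), Complex.ofReal_add]

variable {p} {N : ℕ} [NeZero N]

theorem isAlgebraic_charValue (χ : DirichletCharacter ℂ_[p] N) (a : ZMod N) :
    IsAlgebraic ℚ (χ a) := by
  by_cases ha : IsUnit a
  · obtain ⟨u, rfl⟩ := ha
    refine (IsIntegral.of_pow (R := ℚ) (Nat.totient_pos.2 (NeZero.pos N)) ?_).isAlgebraic
    rw [← map_pow, ← Units.val_pow_eq_pow_val, ZMod.pow_totient, Units.val_one, map_one]
    exact isIntegral_one
  · rw [χ.map_nonunit ha]
    exact isAlgebraic_zero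

/-- A character with values in `AlgNum p`. -/
def algChar (χ : DirichletCharacter ℂ_[p] N) : DirichletCharacter (AlgNum p) N where
  toFun x := ⟨χ x, mem_algebraicClosure_iff.2 (isAlgebraic_charValue χ x)⟩
  map_one' := Subtype.ext (map_one χ)
  map_mul' x y := Subtype.ext (map_mul χ x y)
  map_nonunit' _ hx := Subtype.ext (χ.map_nonunit hx)

theorem toPadic_algChar (χ : DirichletCharacter ℂ_[p] N) (a : ZMod N) :
    toPadic p (algChar χ a) = χ a := rfl

theorem algChar_injective : Function.Injective (algChar (p := p) (N := N)) := fun _ _ h =>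
  MulChar.ext fun u => congrArg (toPadic p) (DFunLike.congr_fun h (u : ZMod N))

theorem algChar_one : algChar (1 : DirichletCharacter ℂ_[p] N) = 1 := MulChar.ext fun u => by
  refine Subtype.ext ?_
  show (1 : DirichletCharacter ℂ_[p] N) (u : ZMod N) = _
  rw [MulChar.one_apply_coe, MulChar.one_apply_coe]
  rfl

theorem algChar_eq_one_iff {χ : DirichletCharacter ℂ_[p] N} : algChar χ = 1 ↔ χ = 1 :=
  ⟨fun h => algChar_injective (h.trans algChar_one.symm), fun h => h ▸ algChar_one⟩

theorem algChar_changeLevel {f : ℕ} [NeZero f] (hf : f ∣ N) (χ : DirichletCharacter ℂ_[p] f) :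
    DirichletCharacter.changeLevel hf (algChar χ) =
      algChar (DirichletCharacter.changeLevel hf χ) := MulChar.ext fun u => Subtype.ext (by
  show toPadic p (DirichletCharacter.changeLevel hf (algChar χ) u) =
    DirichletCharacter.changeLevel hf χ u
  rw [DirichletCharacter.changeLevel_eq_cast_of_dvd _ hf,
    DirichletCharacter.changeLevel_eq_cast_of_dvd _ hf]
  rfl)

theorem ringHomComp_changeLevel {A B : Type} [CommRing A] [CommRing B] (j : A →+* B) {f : ℕ}
    [NeZero f] (hf : f ∣ N) (χ : DirichletCharacter A f) :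
    DirichletCharacter.changeLevel hf (χ.ringHomComp j) =
      (DirichletCharacter.changeLevel hf χ).ringHomComp j := MulChar.ext fun u => by
  rw [MulChar.ringHomComp_apply, DirichletCharacter.changeLevel_eq_cast_of_dvd _ hf,
    DirichletCharacter.changeLevel_eq_cast_of_dvd _ hf, MulChar.ringHomComp_apply]

theorem ringHomComp_ne_one {A B : Type} [Field A] [Field B] (j : A →+* B)
    {χ : DirichletCharacter A N} (h : χ ≠ 1) : χ.ringHomComp j ≠ 1 := fun e => h <|
  MulChar.ext fun u => j.injective (by
    have h1 := DFunLike.congr_fun e (u : ZMod N)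
    rw [MulChar.ringHomComp_apply, MulChar.one_apply_coe] at h1
    rw [h1, MulChar.one_apply_coe, map_one])

theorem isPrimitive_ringHomComp {A B : Type} [Field A] [Field B] (j : A →+* B)
    {χ : DirichletCharacter A N} (h : χ.IsPrimitive) :
    DirichletCharacter.IsPrimitive (χ.ringHomComp j) := by
  set ψ : DirichletCharacter B N := χ.ringHomComp j with hψ
  rw [DirichletCharacter.isPrimitive_def]
  refine Nat.dvd_antisymm ψ.conductor_dvd_level ?_
  have hfac : χ.FactorsThrough ψ.conductor := by
    refine (DirichletCharacter.factorsThrough_iff_ker_unitsMap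
      ψ.conductor_dvd_level).2 fun u hu => MonoidHom.mem_ker.2 (Units.ext ?_)
    have h1 := congrArg Units.val (MonoidHom.mem_ker.1
      ((DirichletCharacter.factorsThrough_iff_ker_unitsMap
        ψ.conductor_dvd_level).1 ψ.factorsThrough_conductor hu))
    rw [MulChar.coe_toUnitHom, Units.val_one] at h1 ⊢
    exact j.injective (h1.trans (map_one j).symm)
  have h1 := (DirichletCharacter.mem_conductorSet_iff_conductor_dvd χ
    ψ.conductor_dvd_level).1 hfac
  rwa [(DirichletCharacter.isPrimitive_def χ).1 h] at h1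

theorem isPrimitive_algChar {χ : DirichletCharacter ℂ_[p] N} (h : χ.IsPrimitive) :
    (algChar χ).IsPrimitive := by
  rw [DirichletCharacter.isPrimitive_def]
  refine Nat.dvd_antisymm (algChar χ).conductor_dvd_level ?_
  have hfac : χ.FactorsThrough (algChar χ).conductor := by
    refine (DirichletCharacter.factorsThrough_iff_ker_unitsMap
      (algChar χ).conductor_dvd_level).2 fun u hu => MonoidHom.mem_ker.2 (Units.ext ?_)
    have h1 := congrArg Units.val (MonoidHom.mem_ker.1
      ((DirichletCharacter.factorsThrough_iff_ker_unitsMap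
        (algChar χ).conductor_dvd_level).1 (algChar χ).factorsThrough_conductor hu))
    rw [MulChar.coe_toUnitHom, Units.val_one] at h1 ⊢
    exact congrArg (toPadic p) h1
  have h1 := (DirichletCharacter.mem_conductorSet_iff_conductor_dvd χ
    (algChar χ).conductor_dvd_level).1 hfac
  rwa [(DirichletCharacter.isPrimitive_def χ).1 h] at h1

/-- Complex conjugation fixes a totally real subfield. -/
theorem galEquiv_symm_neg_one_mem (N : ℕ) [NeZero N] (K : Type) [Field K] [NumberField K]
    [IsCyclotomicExtension {N} ℚ K] [IsAbelianGalois ℚ K] (E : IntermediateField ℚ K)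
    [IsTotallyReal E] :
    (IsCyclotomicExtension.Rat.galEquivZMod N K).symm (-1) ∈ E.fixingSubgroup := by
  set σ := (IsCyclotomicExtension.Rat.galEquivZMod N K).symm (-1)
  have hζ := IsCyclotomicExtension.zeta_spec N ℚ K
  obtain ⟨φ⟩ : Nonempty (K →ₐ[ℚ] ℂ) := ⟨IsAlgClosed.lift⟩
  let ψ : K →ₐ[ℚ] ℂ := φ.comp σ.toAlgHom
  let ψ' : K →ₐ[ℚ] ℂ := ((Complex.conjAe.toAlgHom).restrictScalars ℚ).comp φ
  have heq : ψ = ψ' := (hζ.powerBasis ℚ).algHom_ext (by
    rw [hζ.powerBasis_gen ℚ]
    show φ (σ (IsCyclotomicExtension.zeta N ℚ K)) = (starRingEnd ℂ) (φ _)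
    rw [IsCyclotomicExtension.Rat.galEquivZMod_apply_of_pow_eq N K σ hζ.pow_eq_one,
      MulEquiv.apply_symm_apply, map_pow]
    set z := φ (IsCyclotomicExtension.zeta N ℚ K)
    have hz : z ^ N = 1 := by rw [← map_pow, hζ.pow_eq_one, map_one]
    have hz1 : ‖z‖ = 1 := (pow_eq_one_iff_of_nonneg (norm_nonneg _) (NeZero.ne N)).1
      (by rw [← norm_pow, hz, norm_one])
    obtain ⟨k, hk⟩ : N ∣ ((-1 : (ZMod N)ˣ) : ZMod N).val + 1 := by
      rw [← ZMod.natCast_eq_zero_iff, Nat.cast_add, Nat.cast_one, ZMod.natCast_zmod_val,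
        Units.val_neg, Units.val_one, neg_add_cancel]
    rw [← Complex.inv_eq_conj hz1]
    exact eq_inv_of_mul_eq_one_left (by rw [← pow_succ, hk, pow_mul, hz, one_pow]))
  rw [IntermediateField.mem_fixingSubgroup_iff]
  intro x hx
  refine φ.toRingHom.injective ?_
  show φ (σ x) = φ x
  rw [show φ (σ x) = (starRingEnd ℂ) (φ x) from DFunLike.congr_fun heq x]
  exact DFunLike.congr_fun (ComplexEmbedding.isReal_iff.1 (IsTotallyReal.complexEmbedding_isReal
    (φ.toRingHom.comp (algebraMap E K)))) (⟨x, hx⟩ : E)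

end FA.PadicClassNumber
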