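import Fermat.Agent.PadicClassNumber.Main
import Fermat.Agent.Root.SummaryConductorDiscriminant

/-!
# The formula modulo `p`

With `p ∤ N` a high power of a unit is near `1`, so `‖log_p ι u‖ ≤ 1/p` and `‖R_p‖ ≤ p^(-r)`; the
discriminant is prime to `p`; the value at `0` of a branch is congruent to the value at `p - 1`.
So `∏ (1 - χ(p)/p) 2^r h R_p / √d` is congruent to the product of these values.
-/

set_option autoImplicit false
set_option linter.unusedSectionVars false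
set_option linter.style.haveILetI false

noncomputable section

open NumberField Finset
open FA.Brumer (rad plog)
open FA.GrossRegulator (iwasawaLog)
open FA.PadicDirichletL (branch lValue riemannSum)
open scoped Classical

namespace FA.PadicClassNumber

variable {p : ℕ} [hp : Fact p.Prime]

theorem inv_prime_pos : (0 : ℝ) < (p : ℝ)⁻¹ := inv_pos.2 (by exact_mod_cast hp.out.pos)

/-- An embedding takes integers into the unit disc. -/
theorem norm_le_one_of_algInt {F : Type} [Field F] (κ : F →+* ℂ_[p]) {x : F}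
    (hx : IsIntegral ℤ x) : ‖κ x‖ ≤ 1 := by
  obtain ⟨f, hf, hroot⟩ := hx
  refine FA.Brumer.norm_le_one_of_integral ⟨f, hf, ?_⟩
  have h := congrArg κ hroot
  rw [Polynomial.hom_eval₂, map_zero] at h
  convert h using 2
  all_goals first | rfl | exact RingHom.ext_int _ _

/-- A `p`-th power comes nearer to `1`. -/
theorem norm_pow_prime_sub_one_le {z : ℂ_[p]} (hz : ‖z - 1‖ ≤ (p : ℝ)⁻¹) :
    ‖z ^ p - 1‖ ≤ ‖z - 1‖ * (p : ℝ)⁻¹ := by
  have h := FA.PadicDirichletL.norm_add_pow_sub_le (x := (1 : ℂ_[p])) (y := z - 1) norm_one.le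
    (hz.trans FA.PadicDirichletL.inv_prime_lt_one.le) p
  rw [add_sub_cancel, one_pow, one_pow, mul_one] at h
  rw [show z ^ p - 1 = (z ^ p - 1 - (p : ℂ_[p]) * (z - 1)) + (p : ℂ_[p]) * (z - 1) by ring]
  refine (IsUltrametricDist.norm_add_le_max _ _).trans (max_le (h.trans ?_) ?_)
  · rw [sq]
    exact mul_le_mul_of_nonneg_left hz (norm_nonneg _)
  · rw [norm_mul, FA.GrossKoblitz.norm_prime_eq, mul_comm]

/-- **The logarithm near the roots of unity.** -/
theorem norm_iwasawaLog_le {y : ℂ_[p]} {a : ℕ} (ha : ¬ p ∣ a)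
    (h : ‖y ^ a - 1‖ ≤ (p : ℝ)⁻¹) : ‖iwasawaLog p y‖ ≤ (p : ℝ)⁻¹ := by
  have h1 := norm_pow_prime_sub_one_le h
  have h1' : ‖(y ^ a) ^ p - 1‖ ≤ (p : ℝ)⁻¹ := h1.trans
    ((mul_le_of_le_one_right (norm_nonneg _) FA.PadicDirichletL.inv_prime_lt_one.le).trans h)
  have h2 : ‖((y ^ a) ^ p) ^ p - 1‖ ≤ rad p := by
    refine (norm_pow_prime_sub_one_le h1').trans ?_
    rw [rad, ← inv_pow, pow_succ _ 2, sq]
    exact mul_le_mul_of_nonneg_right (h1.trans (mul_le_mul_of_nonneg_right h inv_prime_pos.le))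
      inv_prime_pos.le
  have hnear : FA.GrossRegulator.Near y (a * p * p) 0 := by
    refine ⟨Nat.mul_pos (Nat.mul_pos (Nat.pos_of_ne_zero fun e => ha (e ▸ dvd_zero p)) hp.out.pos)
      hp.out.pos, ?_⟩
    rwa [zpow_zero, mul_one, pow_mul, pow_mul]
  rw [FA.GrossRegulator.iwasawaLog_eq hnear, zpow_zero, mul_one, pow_mul, pow_mul, norm_div,
    Nat.cast_mul, Nat.cast_mul, norm_mul, norm_mul, FA.GrossKoblitz.norm_natCast_eq_one ha,
    FA.GrossKoblitz.norm_prime_eq, one_mul, div_le_iff₀ (mul_pos inv_prime_pos inv_prime_pos)]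
  refine (FA.Brumer.norm_plog_le _).trans (le_of_eq ?_)
  rw [rad, ← inv_pow, pow_succ' _ 2, sq]

variable {N : ℕ} [NeZero N]

/-- **Frobenius on the integers of `ℚ(ζ_N)` modulo `p`.** -/
theorem exists_frobenius (hNp : N.Coprime p) (K : Type) [Field K] [NumberField K]
    [IsCyclotomicExtension {N} ℚ K] (κ : K →+* ℂ_[p]) :
    ∃ k : ℕ, 0 < k ∧ ∀ x : 𝓞 K, ‖κ x ^ p ^ k - κ x‖ ≤ (p : ℝ)⁻¹ := by
  have hle : ∀ x : 𝓞 K, ‖κ x‖ ≤ 1 := fun x =>
    norm_le_one_of_algInt κ (RingOfIntegers.isIntegral_coe x)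
  have hp2 : ((p : ℕ) : 𝓞 K) ∈ nonunits (𝓞 K) := by
    rintro ⟨v, hv⟩
    have h1 := congrArg (fun x : 𝓞 K => κ x) v.mul_inv
    simp only [hv, map_mul, map_one, map_natCast] at h1
    refine absurd (congrArg norm h1) (ne_of_lt ?_)
    rw [norm_mul, norm_one, FA.GrossKoblitz.norm_prime_eq]
    exact (mul_le_of_le_one_right inv_prime_pos.le (hle _)).trans_lt
      FA.PadicDirichletL.inv_prime_lt_one
  set R := 𝓞 K ⧸ Ideal.span {((p : ℕ) : 𝓞 K)}
  haveI : CharP R p := CharP.quotient (𝓞 K) p hp2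
  haveI : ExpChar R p := ExpChar.prime hp.out
  set k := N.totient
  refine ⟨k, Nat.totient_pos.2 (NeZero.pos N), fun x => ?_⟩
  have hζ := IsCyclotomicExtension.zeta_spec N ℚ K
  set mk : 𝓞 K →+* R := Ideal.Quotient.mk _
  have hζq : hζ.toInteger ^ p ^ k = hζ.toInteger := by
    rw [pow_eq_pow_mod (p ^ k) hζ.toInteger_isPrimitiveRoot.pow_eq_one,
      Nat.ModEq.pow_totient (hNp.symm),
      ← pow_eq_pow_mod 1 hζ.toInteger_isPrimitiveRoot.pow_eq_one, pow_one]
  have heq : ((iterateFrobenius R p k).comp mk).toIntAlgHom = mk.toIntAlgHom :=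
    hζ.integralPowerBasis.algHom_ext (by
      rw [IsPrimitiveRoot.integralPowerBasis_gen]
      show iterateFrobenius R p k (mk hζ.toInteger) = mk hζ.toInteger
      rw [iterateFrobenius_def, ← map_pow, hζq])
  obtain ⟨y, hy⟩ : ((p : ℕ) : 𝓞 K) ∣ x ^ p ^ k - x := by
    rw [← Ideal.mem_span_singleton, ← Ideal.Quotient.eq, map_pow, ← iterateFrobenius_def p k]
    exact DFunLike.congr_fun heq x
  have h1 : κ (x : K) ^ p ^ k - κ x = (p : ℂ_[p]) * κ y := by
    rw [← map_pow, ← map_sub, show (x : K) ^ p ^ k - x = ((x ^ p ^ k - x : 𝓞 K) : K) by simp,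
      hy, ← map_natCast κ p, ← map_mul]
    simp
  rw [h1, norm_mul, FA.GrossKoblitz.norm_prime_eq]
  exact mul_le_of_le_one_right inv_prime_pos.le (hle y)

/-- **The logarithms of the units.** -/
theorem norm_log_unit_le (hNp : N.Coprime p) (K : Type) [Field K] [NumberField K]
    [IsCyclotomicExtension {N} ℚ K] [IsAbelianGalois ℚ K] (E : IntermediateField ℚ K)
    [IsGalois ℚ E] (ι : E →+* ℂ_[p]) (u : (𝓞 E)ˣ) :
    ‖iwasawaLog p (ι ((u : 𝓞 E) : E))‖ ≤ (p : ℝ)⁻¹ := by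
  obtain ⟨κ, hκ⟩ := exists_embedding (p := p) K E ι
  obtain ⟨k, hk, h⟩ := exists_frobenius hNp K ((toPadic p).comp κ)
  have hle : ∀ v : (𝓞 E)ˣ, ‖ι ((v : 𝓞 E) : E)‖ ≤ 1 := fun v =>
    norm_le_one_of_algInt ι (RingOfIntegers.isIntegral_coe (v : 𝓞 E))
  set y := ι ((u : 𝓞 E) : E)
  have hy1 : ‖y‖ = 1 := by
    refine le_antisymm (hle u) ?_
    have h1 := congrArg (fun x : 𝓞 E => ‖ι x‖) u.mul_inv
    simp only [map_mul, map_one, norm_mul, norm_one] at h1
    exact h1.symm.trans_le (mul_le_of_le_one_right (norm_nonneg _) (hle _))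
  have hq : ‖y ^ p ^ k - y‖ ≤ (p : ℝ)⁻¹ := by
    have h1 := h (algebraMap (𝓞 E) (𝓞 K) (u : 𝓞 E))
    rw [RingHom.comp_apply, show ((algebraMap (𝓞 E) (𝓞 K) (u : 𝓞 E) : 𝓞 K) : K) =
      algebraMap E K ((u : 𝓞 E) : E) from rfl, hκ] at h1
    exact h1
  refine norm_iwasawaLog_le (a := p ^ k - 1) (fun hd => hp.out.ne_one ?_) ?_
  · have := Nat.dvd_sub (dvd_pow_self p hk.ne') hd
    rwa [Nat.sub_sub_self (Nat.one_le_pow _ _ hp.out.pos), Nat.dvd_one] at this
  · calc ‖y ^ (p ^ k - 1) - 1‖ = ‖y‖ * ‖y ^ (p ^ k - 1) - 1‖ := by rw [hy1, one_mul]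
      _ = ‖y ^ p ^ k - y‖ := by
        rw [← norm_mul, mul_sub_one, ← pow_succ', Nat.sub_add_cancel
          (Nat.one_le_pow _ _ hp.out.pos)]
      _ ≤ _ := hq

/-- **The bound for the regulator.** -/
theorem norm_padicRegulator_le (hNp : N.Coprime p) (K : Type) [Field K] [NumberField K]
    [IsCyclotomicExtension {N} ℚ K] [IsAbelianGalois ℚ K] (E : IntermediateField ℚ K)
    [IsGalois ℚ E] (ι : E →+* ℂ_[p])
    (e : Fin (Units.rank E) ≃ {σ : Gal(E/ℚ) // σ ≠ 1}) :
    ‖padicRegulator K E ι e‖ ≤ ((p : ℝ)⁻¹) ^ Units.rank E := by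
  have hentry : ∀ k j, ‖iwasawaLog p (ι ((e j : Gal(E/ℚ))
      ((Units.fundSystem E k : 𝓞 E) : E)))‖ ≤ (p : ℝ)⁻¹ := fun k j => by
    have h := norm_log_unit_le hNp K E (ι.comp ((e j : Gal(E/ℚ)) : E →+* E))
      (Units.fundSystem E k)
    exact h
  rw [padicRegulator, Matrix.det_apply]
  refine IsUltrametricDist.norm_sum_le_of_forall_le_of_nonneg (by positivity) fun σ _ => ?_
  have hs : ‖Equiv.Perm.sign σ • ∏ i, (Matrix.of fun k j : Fin (Units.rank E) =>
      iwasawaLog p (ι ((e j : Gal(E/ℚ)) ((Units.fundSystem E k : 𝓞 E) : E)))) (σ i) i‖ =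
      ∏ i, ‖iwasawaLog p (ι ((e i : Gal(E/ℚ)) ((Units.fundSystem E (σ i) : 𝓞 E) : E)))‖ := by
    rcases Int.units_eq_one_or (Equiv.Perm.sign σ) with h | h <;> simp [h]
  rw [hs]
  refine (prod_le_prod (fun i _ => norm_nonneg _) fun i _ => hentry (σ i) i).trans (le_of_eq ?_)
  rw [prod_const, card_univ, Fintype.card_fin]

/-- The square root of the discriminant is a unit at `p`. -/
theorem norm_sqrt_discr (hNp : N.Coprime p) (K : Type) [Field K] [NumberField K]
    [IsCyclotomicExtension {N} ℚ K] [IsAbelianGalois ℚ K] (E : IntermediateField ℚ K)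
    {s : ℂ_[p]} (hs : s ^ 2 = (discr E : ℂ_[p])) : ‖s‖ = 1 := by
  have hd : ¬ p ∣ (discr E).natAbs := fun h => by
    rw [FA.Summary.conductor_discriminant N K E,
      (Nat.Prime.prime hp.out).dvd_finsetProd_iff] at h
    obtain ⟨χ, -, hχ⟩ := h
    exact (Nat.Prime.coprime_iff_not_dvd hp.out).1 hNp.symm (hχ.trans χ.conductor_dvd_level)
  have h1 : ‖s ^ 2‖ = 1 := by
    rw [hs]
    obtain ⟨n, hn | hn⟩ := Int.eq_nat_or_neg (discr E) <;> rw [hn] at hd ⊢ <;>
      simp at hd ⊢ <;> exact FA.GrossKoblitz.norm_natCast_eq_one hd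
  exact (pow_eq_one_iff_of_nonneg (norm_nonneg s) two_ne_zero).1 (by rwa [← norm_pow])

variable {f : ℕ} [NeZero f]

/-- The values are integral. -/
theorem norm_lValue_le (hfp : f.Coprime p) {χ : DirichletCharacter ℂ_[p] f} (hne : χ ≠ 1) {m : ℕ}
    (hm : 1 ≤ m) : ‖lValue χ m‖ ≤ 1 := by
  rw [← norm_neg]
  refine le_of_tendsto' (FA.PadicDirichletL.tendsto_riemannSum hfp hne hm).norm fun n => ?_
  refine IsUltrametricDist.norm_sum_le_of_forall_le_of_nonneg zero_le_one fun b hb => ?_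
  rw [norm_mul, norm_zpow, FA.GrossKoblitz.norm_natCast_eq_one
    (FA.PadicDirichletL.not_dvd_of_mem hb), one_zpow, one_mul]
  exact FA.PadicDirichletL.norm_nu_le hfp χ n b

/-- The value at zero modulo `p`. -/
theorem norm_branch_zero_sub_le (hfp : f.Coprime p) {χ : DirichletCharacter ℂ_[p] f}
    (hne : χ ≠ 1) : ‖branch χ 0 0 - lValue χ (p - 1)‖ ≤ (p : ℝ)⁻¹ := by
  have h := FA.PadicDirichletL.norm_branch_sub_le hfp hne (k := 0) (x := 0) (t := 1) (N := 0)
    (FA.PadicDirichletL.one_le_expo 0 le_rfl) (by simp)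
  simpa using h

/-- Products of congruent integral numbers are congruent. -/
theorem norm_prod_sub_prod_le' {I : Type*} (t : Finset I) {a b : I → ℂ_[p]} {ε : ℝ} (hε : 0 ≤ ε)
    (hε1 : ε ≤ 1) (hb : ∀ i ∈ t, ‖b i‖ ≤ 1) (h : ∀ i ∈ t, ‖a i - b i‖ ≤ ε) :
    ‖∏ i ∈ t, a i - ∏ i ∈ t, b i‖ ≤ ε := by
  induction t using Finset.induction_on with
  | empty => simpa using hε
  | insert i t hi ih =>
    rw [forall_mem_insert] at hb h
    have ha : ‖∏ j ∈ t, a j‖ ≤ 1 := by
      rw [norm_prod]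
      refine prod_le_one (fun j _ => norm_nonneg _) fun j hj => ?_
      rw [show a j = (a j - b j) + b j by ring]
      exact (IsUltrametricDist.norm_add_le_max _ _).trans
        (max_le ((h.2 j hj).trans hε1) (hb.2 j hj))
    rw [prod_insert hi, prod_insert hi, show a i * ∏ j ∈ t, a j - b i * ∏ j ∈ t, b j =
      (a i - b i) * ∏ j ∈ t, a j + b i * (∏ j ∈ t, a j - ∏ j ∈ t, b j) by ring]
    refine (IsUltrametricDist.norm_add_le_max _ _).trans (max_le ?_ ?_) <;> rw [norm_mul]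
    · exact (mul_le_of_le_one_right (norm_nonneg _) ha).trans h.1
    · exact (mul_le_of_le_one_left (norm_nonneg _) hb.1).trans (ih hb.2 h.2)

variable (N) (K : Type) [Field K] [NumberField K] [IsCyclotomicExtension {N} ℚ K]
  [IsAbelianGalois ℚ K] (E : IntermediateField ℚ K) [IsGalois ℚ E] [IsTotallyReal E]

/-- **The congruence.** -/
theorem exists_congruence (hNp : N.Coprime p) (ι : E →+* ℂ_[p])
    (e : Fin (Units.rank E) ≃ {σ : Gal(E/ℚ) // σ ≠ 1}) :
    ∃ s : ℂ_[p], s ^ 2 = (discr E : ℂ_[p]) ∧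
      ‖(∏ χ ∈ charSet (p := p) N K E, (1 - χ.primitiveCharacter p / (p : ℂ_[p]))) *
          (2 ^ Units.rank E * (classNumber E : ℂ_[p]) * padicRegulator K E ι e) / s -
        ∏ χ ∈ charSet (p := p) N K E, lValue χ.primitiveCharacter (p - 1)‖ ≤ (p : ℝ)⁻¹ := by
  obtain ⟨s, hs, h⟩ := padicL_prod_eq N K E hNp ι e
  refine ⟨s, hs, ?_⟩
  rw [← h]
  have hspec : ∀ χ ∈ charSet (p := p) N K E, χ.primitiveCharacter ≠ 1 := fun χ hχ =>
    (primitive_spec K E (mem_filter.1 hχ).2.1 (mem_filter.1 hχ).2.2).1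
  refine norm_prod_sub_prod_le' _ inv_prime_pos.le FA.PadicDirichletL.inv_prime_lt_one.le
    (fun χ hχ => norm_lValue_le (hNp.coprime_dvd_left χ.conductor_dvd_level) (hspec χ hχ) ?_)
    (fun χ hχ => norm_branch_zero_sub_le (hNp.coprime_dvd_left χ.conductor_dvd_level) (hspec χ hχ))
  exact Nat.sub_pos_of_lt hp.out.one_lt

/-- **Non-divisibility.** -/
theorem not_dvd_classNumber (hNp : N.Coprime p) (hp2 : p ≠ 2)
    (hB : ∀ χ ∈ charSet (p := p) N K E,
      ‖FA.PadicDirichletL.bernChar χ.primitiveCharacter (p - 1)‖ = 1) :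
    ¬ p ∣ classNumber E := fun hh => by
  obtain ⟨ι⟩ : Nonempty (E →+* ℂ_[p]) :=
    ⟨(IsAlgClosed.lift : E →ₐ[ℚ] ℂ_[p]).toRingHom⟩
  obtain ⟨e⟩ : Nonempty (Fin (Units.rank E) ≃ {σ : Gal(E/ℚ) // σ ≠ 1}) := by
    refine ⟨(Fintype.equivFinOfCardEq ?_).symm⟩
    have := rank_add_one (E := E)
    rw [Fintype.card_subtype_compl, Fintype.card_subtype_eq]
    omega
  obtain ⟨s, hs, h⟩ := exists_congruence N K E hNp ι e
  set X := charSet (p := p) N K E
  set A := (∏ χ ∈ X, (1 - χ.primitiveCharacter p / (p : ℂ_[p]))) *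
    (2 ^ Units.rank E * (classNumber E : ℂ_[p]) * padicRegulator K E ι e) / s
  set B := ∏ χ ∈ X, lValue χ.primitiveCharacter (p - 1)
  have hp3 : 3 ≤ p := by have := hp.out.two_le; omega
  have hval : ‖B‖ = 1 := by
    rw [norm_prod]
    refine prod_eq_one fun χ hχ => ?_
    have h1 : ‖1 - χ.primitiveCharacter p * (p : ℂ_[p]) ^ (p - 1 - 1)‖ = 1 := by
      have h2 : ‖χ.primitiveCharacter p * (p : ℂ_[p]) ^ (p - 1 - 1)‖ < 1 := by
        rw [norm_mul, FA.PadicDirichletL.norm_prime_pow]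
        exact (mul_le_of_le_one_left (by positivity)
          (DirichletCharacter.norm_le_one _ _)).trans_lt (pow_lt_one₀ (by positivity)
            FA.PadicDirichletL.inv_prime_lt_one (by omega))
      rw [sub_eq_add_neg, IsUltrametricDist.norm_add_eq_max_of_norm_ne_norm
        (by rw [norm_one, norm_neg]; exact h2.ne'), norm_one, norm_neg, max_eq_left h2.le]
    rw [lValue, norm_div, norm_neg, norm_mul, h1, hB χ hχ, one_mul,
      FA.GrossKoblitz.norm_natCast_eq_one (Nat.not_dvd_of_pos_of_lt (by omega) (by omega)),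
      div_one]
  have hcard : X.card = Units.rank E := by
    have h1 := card_charSet_add_one (p := p) N K E
    have h2 := rank_add_one (E := E)
    rw [← Nat.card_eq_fintype_card, IsGalois.card_aut_eq_finrank] at h2
    exact Nat.add_right_cancel (h1.trans h2.symm)
  have hA : ‖A‖ ≤ ‖(classNumber E : ℂ_[p])‖ := by
    have hE : ‖∏ χ ∈ X, (1 - χ.primitiveCharacter p / (p : ℂ_[p]))‖ ≤
        (p : ℝ) ^ Units.rank E := by
      rw [norm_prod, ← hcard, ← prod_const]
      refine prod_le_prod (fun χ _ => norm_nonneg _) fun χ _ => ?_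
      rw [sub_eq_add_neg]
      refine (IsUltrametricDist.norm_add_le_max _ _).trans (max_le ?_ ?_)
      · rw [norm_one]
        exact_mod_cast hp.out.one_le
      · rw [norm_neg, norm_div, FA.GrossKoblitz.norm_prime_eq, div_inv_eq_mul]
        exact mul_le_of_le_one_left (by positivity) (DirichletCharacter.norm_le_one _ _)
    rw [norm_div, norm_sqrt_discr hNp K E hs, div_one, norm_mul, norm_mul, norm_mul, norm_pow]
    calc _ ≤ (p : ℝ) ^ Units.rank E *
          (1 * ‖(classNumber E : ℂ_[p])‖ * ((p : ℝ)⁻¹) ^ Units.rank E) := by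
          refine mul_le_mul hE (mul_le_mul (mul_le_mul_of_nonneg_right
            (pow_le_one₀ (norm_nonneg _) (IsUltrametricDist.norm_natCast_le_one _ 2))
            (norm_nonneg _)) (norm_padicRegulator_le hNp K E ι e) (norm_nonneg _) (by positivity))
            (by positivity) (by positivity)
      _ = _ := by
        rw [inv_pow, one_mul, mul_left_comm,
          mul_inv_cancel₀ (pow_ne_zero _ (Nat.cast_ne_zero.2 hp.out.ne_zero)), mul_one]
  have hlt : ‖A - B‖ < 1 := h.trans_lt FA.PadicDirichletL.inv_prime_lt_one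
  have hA1 : ‖(classNumber E : ℂ_[p])‖ < 1 := by
    obtain ⟨c, hc⟩ := hh
    rw [hc, Nat.cast_mul, norm_mul, FA.GrossKoblitz.norm_prime_eq]
    exact (mul_le_of_le_one_right inv_prime_pos.le
      (IsUltrametricDist.norm_natCast_le_one _ _)).trans_lt FA.PadicDirichletL.inv_prime_lt_one
  have hB' : ‖B‖ < 1 := by
    rw [show B = A + -(A - B) by ring]
    exact (IsUltrametricDist.norm_add_le_max _ _).trans_lt
      (max_lt (hA.trans_lt hA1) (by rwa [norm_neg]))
  exact absurd hval hB'.ne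

end FA.PadicClassNumber
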