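import Fermat.Agent.PadicClassNumber.GroupDet
import Mathlib.NumberTheory.NumberField.Cyclotomic.Galois
import Mathlib.NumberTheory.NumberField.Cyclotomic.Basic
import Mathlib.NumberTheory.NumberField.Norm
import Mathlib.RingTheory.RootsOfUnity.CyclotomicUnits

/-!
# The unit of a character

For a subfield `E` of `ℚ(ζ_N)` and a nontrivial character `θ` of `E` of level `f ∣ N` the norm to
`E` of a quotient of conjugates of `1 - ζ_f` is a unit whose character sum of logarithms is a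
non-zero multiple, the same for every logarithm, of `∑ θ(a) log (1 - ζ_f^a)` (`exists_unit`).
-/

set_option autoImplicit false
set_option linter.unusedSectionVars false
set_option linter.style.haveILetI false

noncomputable section

open NumberField Finset
open scoped Classical

namespace FA.PadicClassNumber

variable (N : ℕ) [NeZero N] (K : Type) [Field K] [NumberField K] [IsCyclotomicExtension {N} ℚ K]
  [IsAbelianGalois ℚ K] (E : IntermediateField ℚ K) [IsGalois ℚ E] {L : Type} [Field L]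

local notation "gal" => IsCyclotomicExtension.Rat.galEquivZMod N K

/-- The restriction to `E`. -/
def resHom : Gal(K/ℚ) →* Gal(E/ℚ) := AlgEquiv.restrictNormalHom E

theorem resHom_surjective : Function.Surjective (resHom K E) :=
  AlgEquiv.restrictNormalHom_surjective K

theorem algebraMap_resHom (σ : Gal(K/ℚ)) (x : E) : ((resHom K E σ x : E) : K) = σ (x : K) :=
  AlgEquiv.restrictNormal_commutes σ E x

theorem resHom_eq_one_iff {σ : Gal(K/ℚ)} : resHom K E σ = 1 ↔ σ ∈ E.fixingSubgroup := by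
  rw [IntermediateField.mem_fixingSubgroup_iff]
  refine ⟨fun h x hx => ?_, fun h => AlgEquiv.ext fun x => Subtype.ext ?_⟩
  · have h1 := algebraMap_resHom K E σ ⟨x, hx⟩
    rw [h] at h1
    exact h1.symm
  · rw [algebraMap_resHom]
    exact h _ x.2

/-- A character of level `N` trivial on `E` as a character of `Gal(E/ℚ)`. -/
def charE (θ : DirichletCharacter L N) (hθ : ∀ σ ∈ E.fixingSubgroup, θ (gal σ) = 1) :
    Gal(E/ℚ) →* L :=
  have key : ∀ {σ σ' : Gal(K/ℚ)}, resHom K E σ = resHom K E σ' → θ (gal σ) = θ (gal σ') :=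
    fun {σ σ'} h => by
      have h1 : resHom K E (σ'⁻¹ * σ) = 1 := by rw [map_mul, h, map_inv, inv_mul_cancel]
      rw [← mul_inv_cancel_left σ' σ, map_mul gal σ', Units.val_mul, map_mul,
        hθ _ ((resHom_eq_one_iff K E).1 h1), mul_one]
  { toFun := fun τ => θ (gal (resHom_surjective K E τ).choose)
    map_one' := by
      rw [key ((resHom_surjective K E 1).choose_spec.trans (map_one _).symm), map_one,
        Units.val_one, map_one]
    map_mul' := fun τ τ' => by
      rw [key ((resHom_surjective K E _).choose_spec.trans (show τ * τ' = resHom K E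
        ((resHom_surjective K E τ).choose * (resHom_surjective K E τ').choose) by
          rw [map_mul, (resHom_surjective K E τ).choose_spec,
            (resHom_surjective K E τ').choose_spec])), map_mul, Units.val_mul, map_mul] }

theorem charE_resHom (θ : DirichletCharacter L N) (hθ : ∀ σ ∈ E.fixingSubgroup, θ (gal σ) = 1)
    (σ : Gal(K/ℚ)) : charE N K E θ hθ (resHom K E σ) = θ (gal σ) := by
  show θ (gal (resHom_surjective K E (resHom K E σ)).choose) = θ (gal σ)
  have h := (resHom_surjective K E (resHom K E σ)).choose_spec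
  set σ' := (resHom_surjective K E (resHom K E σ)).choose
  have h1 : resHom K E (σ⁻¹ * σ') = 1 := by rw [map_mul, h, map_inv, inv_mul_cancel]
  rw [← mul_inv_cancel_left σ σ', map_mul gal σ, Units.val_mul, map_mul,
    hθ _ ((resHom_eq_one_iff K E).1 h1), mul_one]

theorem charE_ne_one (θ : DirichletCharacter L N) (hθ : ∀ σ ∈ E.fixingSubgroup, θ (gal σ) = 1)
    (hne : θ ≠ 1) : charE N K E θ hθ ≠ 1 := fun h => hne (MulChar.ext fun u => by
  have h1 := charE_resHom N K E θ hθ ((gal).symm u)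
  rw [h, MonoidHom.one_apply, MulEquiv.apply_symm_apply] at h1
  rw [← h1, MulChar.one_apply_coe])

theorem charE_injective {θ θ' : DirichletCharacter L N}
    (hθ : ∀ σ ∈ E.fixingSubgroup, θ (gal σ) = 1) (hθ' : ∀ σ ∈ E.fixingSubgroup, θ' (gal σ) = 1)
    (h : charE N K E θ hθ = charE N K E θ' hθ') : θ = θ' := MulChar.ext fun u => by
  have h1 := charE_resHom N K E θ hθ ((gal).symm u)
  rw [h, charE_resHom, MulEquiv.apply_symm_apply] at h1
  exact h1.symm

/-- A primitive root of order `f ∣ N`. -/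
def zetaDiv (f : ℕ) : K := IsCyclotomicExtension.zeta N ℚ K ^ (N / f)

theorem zetaDiv_spec {f : ℕ} (hf : f ∣ N) : IsPrimitiveRoot (zetaDiv N K f) f :=
  (IsCyclotomicExtension.zeta_spec N ℚ K).pow (NeZero.pos N) (Nat.div_mul_cancel hf).symm

theorem gal_zetaDiv {f : ℕ} (hf : f ∣ N) (σ : Gal(K/ℚ)) :
    σ (zetaDiv N K f) = zetaDiv N K f ^ ((gal σ : ZMod N) : ZMod N).val :=
  IsCyclotomicExtension.Rat.galEquivZMod_apply_of_pow_eq N K σ (by
    obtain ⟨k, hk⟩ := hf
    calc zetaDiv N K f ^ N = (zetaDiv N K f ^ f) ^ k := by rw [← pow_mul, ← hk]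
      _ = 1 := by rw [(zetaDiv_spec N K ⟨k, hk⟩).pow_eq_one, one_pow])

variable [CharZero L] (κ : K →+* L)

/-- The sum over all of `Gal(ℚ(ζ_N)/ℚ)`. -/
theorem sum_gal_eq {f : ℕ} [NeZero f] (hf : f ∣ N) (θ₀ : DirichletCharacter L f) :
    ∃ m : L, m ≠ 0 ∧ ∀ {F : Type} [Field F] (Λ : LogMap L F),
      ∑ σ : Gal(K/ℚ), Λ.emb (DirichletCharacter.changeLevel hf θ₀ (gal σ)) *
          Λ.log (κ (σ (1 - zetaDiv N K f))) =
        Λ.emb m * ∑ a : ZMod f, Λ.emb (θ₀ a) * Λ.log (1 - κ (zetaDiv N K f) ^ a.val) := by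
  have hsurj := ZMod.unitsMap_surjective hf
  set m := (univ.filter fun g : (ZMod N)ˣ => ZMod.unitsMap hf g = 1).card
  have hcard : ∀ w : (ZMod f)ˣ,
      (univ.filter fun g : (ZMod N)ˣ => ZMod.unitsMap hf g = w).card = m :=
    fun w => MonoidHom.card_fiber_eq_of_mem_range _ (hsurj w) (hsurj 1)
  have hm : m ≠ 0 := card_ne_zero.2 ⟨1, mem_filter.2 ⟨mem_univ _, map_one _⟩⟩
  refine ⟨(m : L), Nat.cast_ne_zero.2 hm, fun {F} _ Λ => ?_⟩
  set G : ZMod f → F := fun a => Λ.emb (θ₀ a) * Λ.log (1 - κ (zetaDiv N K f) ^ a.val)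
  calc ∑ σ : Gal(K/ℚ), Λ.emb (DirichletCharacter.changeLevel hf θ₀ (gal σ)) *
          Λ.log (κ (σ (1 - zetaDiv N K f)))
      = ∑ g : (ZMod N)ˣ, G (ZMod.unitsMap hf g : ZMod f) := by
        refine Fintype.sum_equiv (gal).toEquiv _ _ fun σ => ?_
        simp only [G]
        congr 1
        · congr 1
          rw [DirichletCharacter.changeLevel_eq_cast_of_dvd _ hf, ← ZMod.unitsMap_val hf]
          rfl
        · congr 1
          rw [map_sub, map_one, gal_zetaDiv N K hf, map_sub, map_one, map_pow,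
            pow_eq_pow_mod _ (show κ (zetaDiv N K f) ^ f = 1 by
              rw [← map_pow, (zetaDiv_spec N K hf).pow_eq_one, map_one]),
            ZMod.unitsMap_val, ← ZMod.val_natCast, ZMod.natCast_val]
          rfl
    _ = ∑ w : (ZMod f)ˣ, (m : F) * G w := by
        rw [← sum_fiberwise univ (fun g : (ZMod N)ˣ => ZMod.unitsMap hf g)]
        refine sum_congr rfl fun w _ => ?_
        rw [sum_congr rfl fun g hg => by rw [(mem_filter.1 hg).2], sum_const, hcard,
          nsmul_eq_mul]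
    _ = (m : F) * ∑ a : ZMod f, G a := by
        rw [← mul_sum]
        congr 1
        exact Fintype.sum_of_injective _ Units.val_injective _ _ (fun a ha => by
          simp only [G]
          rw [θ₀.map_nonunit fun h => ha ⟨h.unit, h.unit_spec⟩, map_zero, zero_mul]) fun _ => rfl
    _ = _ := by rw [map_natCast]

/-- **The unit of a character.** -/
theorem exists_unit {f : ℕ} [NeZero f] (hf : f ∣ N) {θ₀ : DirichletCharacter L f} (hne : θ₀ ≠ 1)
    (hθ : ∀ σ ∈ E.fixingSubgroup, DirichletCharacter.changeLevel hf θ₀ (gal σ) = 1) :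
    ∃ (y : (𝓞 E)ˣ) (m : L), m ≠ 0 ∧ ∀ {F : Type} [Field F] [CharZero F] (Λ : LogMap L F),
      charSum (κ.comp (algebraMap E K)) Λ (charE N K E _ hθ) y =
        Λ.emb m * ∑ a : ZMod f, Λ.emb (θ₀ a) * Λ.log (1 - κ (zetaDiv N K f) ^ a.val) := by
  set θ := DirichletCharacter.changeLevel hf θ₀ with hθdef
  have hne' : θ ≠ 1 := fun h => hne (DirichletCharacter.changeLevel_injective hf
    (h.trans (DirichletCharacter.changeLevel_one hf).symm))
  obtain ⟨g₀, hg₀⟩ : ∃ g : (ZMod N)ˣ, θ g ≠ 1 := not_forall.1 fun h =>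
    hne' (MulChar.ext fun u => by rw [h, MulChar.one_apply_coe])
  have hf1 : 1 < f := by
    by_contra h
    obtain rfl : f = 1 := le_antisymm (not_lt.1 h) NeZero.one_le
    exact hne (MulChar.ext fun u => by rw [Subsingleton.elim u 1, Units.val_one, map_one, map_one])
  set σ₀ := (gal).symm g₀
  have hz := (zetaDiv_spec N K hf).toInteger_isPrimitiveRoot
  obtain ⟨u, hu⟩ := hz.associated_sub_one_pow_sub_one_of_coprime (j := (g₀ : ZMod N).val)
    ((ZMod.val_coe_unit_coprime g₀).coprime_dvd_right hf)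
  have hu' : σ₀ (1 - zetaDiv N K f) = (1 - zetaDiv N K f) * ((u : 𝓞 K) : K) := by
    have h := congrArg (fun t : 𝓞 K => (t : K)) hu
    simp only [map_mul, map_sub, map_pow, map_one] at h
    rw [show algebraMap (𝓞 K) K (zetaDiv_spec N K hf).toInteger = zetaDiv N K f from rfl] at h
    rw [map_sub, map_one, gal_zetaDiv N K hf, MulEquiv.apply_symm_apply]
    linear_combination h
  have hθ0 : θ g₀ ≠ 0 := (IsUnit.map θ g₀.isUnit).ne_zero
  obtain ⟨m, hm, hsum⟩ := sum_gal_eq N K κ hf θ₀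
  refine ⟨Units.map (RingOfIntegers.norm E) u, ((θ g₀)⁻¹ - 1) * m,
    mul_ne_zero (sub_ne_zero.2 fun h => hg₀ (inv_eq_one.1 h)) hm, fun {F} _ _ Λ => ?_⟩
  have hx : ∀ σ : Gal(K/ℚ), κ (σ (1 - zetaDiv N K f)) ≠ 0 := fun σ =>
    (map_ne_zero κ).2 ((map_ne_zero σ).2 (sub_ne_zero.2 ((zetaDiv_spec N K hf).ne_one hf1).symm))
  have hu0 : ∀ σ : Gal(K/ℚ), κ (σ ((u : 𝓞 K) : K)) ≠ 0 := fun σ =>
    (map_ne_zero κ).2 ((map_ne_zero σ).2 (RingOfIntegers.coe_ne_zero_iff.2 u.ne_zero))
  have hsplit : ∀ σ : Gal(K/ℚ), Λ.log (κ (σ ((u : 𝓞 K) : K))) =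
      Λ.log (κ ((σ * σ₀) (1 - zetaDiv N K f))) - Λ.log (κ (σ (1 - zetaDiv N K f))) := fun σ => by
    rw [AlgEquiv.mul_apply, hu', map_mul, map_mul, Λ.log_mul _ _ (hx σ) (hu0 σ),
      add_sub_cancel_left]
  have hlog : ∀ σ : Gal(K/ℚ),
      logUnit (κ.comp (algebraMap E K)) Λ (resHom K E σ) (Units.map (RingOfIntegers.norm E) u) =
        ∑ ρ : Gal(K/E), Λ.log (κ ((σ * ρ.restrictScalars ℚ) ((u : 𝓞 K) : K))) := fun σ => by
    rw [logUnit, RingHom.comp_apply,
      show algebraMap E K (resHom K E σ ((Units.map (RingOfIntegers.norm E) u : 𝓞 E) : E)) =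
        σ (algebraMap E K (Algebra.norm E ((u : 𝓞 K) : K))) from algebraMap_resHom K E σ _,
      Algebra.norm_eq_prod_automorphisms, map_prod, map_prod, Λ.log_prod]
    · rfl
    · exact fun ρ _ => hu0 (σ * ρ.restrictScalars ℚ)
  have hfib : ∑ τ : Gal(E/ℚ), Λ.emb (charE N K E θ hθ τ) *
      logUnit (κ.comp (algebraMap E K)) Λ τ (Units.map (RingOfIntegers.norm E) u) =
      ∑ σ : Gal(K/ℚ), Λ.emb (θ (gal σ)) * Λ.log (κ (σ ((u : 𝓞 K) : K))) := by
    rw [← sum_fiberwise univ (resHom K E)]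
    refine sum_congr rfl fun τ _ => ?_
    obtain ⟨σ₁, rfl⟩ := resHom_surjective K E τ
    rw [hlog, mul_sum]
    have hker : ∀ ρ : Gal(K/E), resHom K E (σ₁ * ρ.restrictScalars ℚ) = resHom K E σ₁ := fun ρ => by
      rw [map_mul, (resHom_eq_one_iff K E (σ := ρ.restrictScalars ℚ)).2 (by
        rw [IntermediateField.mem_fixingSubgroup_iff]
        exact fun x hx => ρ.commutes ⟨x, hx⟩), mul_one]
    refine sum_bij (fun ρ _ => σ₁ * ρ.restrictScalars ℚ)
      (fun ρ _ => mem_filter.2 ⟨mem_univ _, hker ρ⟩)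
      (fun a _ b _ h => AlgEquiv.ext fun x => DFunLike.congr_fun (mul_left_cancel h) x)
      (fun σ hσ => ?_) fun ρ _ => by rw [← charE_resHom N K E θ hθ, hker]
    have h1 : σ₁⁻¹ * σ ∈ E.fixingSubgroup := (resHom_eq_one_iff K E).1 (by
      rw [map_mul, map_inv, (mem_filter.1 hσ).2, inv_mul_cancel])
    rw [IntermediateField.mem_fixingSubgroup_iff] at h1
    exact ⟨AlgEquiv.ofRingEquiv (f := (σ₁⁻¹ * σ).toRingEquiv) fun x => h1 _ x.2, mem_univ _,
      (congrArg (σ₁ * ·) (AlgEquiv.ext fun x => rfl)).trans (mul_inv_cancel_left σ₁ σ)⟩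
  rw [charSum, hfib]
  simp only [hsplit, mul_sub, sum_sub_distrib]
  have hshift : ∑ σ : Gal(K/ℚ), Λ.emb (θ (gal σ)) * Λ.log (κ ((σ * σ₀) (1 - zetaDiv N K f))) =
      Λ.emb (θ g₀)⁻¹ *
        ∑ σ : Gal(K/ℚ), Λ.emb (θ (gal σ)) * Λ.log (κ (σ (1 - zetaDiv N K f))) := by
    rw [mul_sum]
    refine Fintype.sum_bijective (fun σ => σ * σ₀) (Group.mulRight_bijective σ₀) _ _ fun σ => ?_
    rw [map_mul gal σ, MulEquiv.apply_symm_apply, Units.val_mul, map_mul θ, ← mul_assoc, ← map_mul,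
      mul_comm (θ (gal σ : ZMod N)), inv_mul_cancel_left₀ hθ0]
  rw [hshift, hsum Λ, ← sub_one_mul, map_mul, map_sub, map_one, mul_assoc]

end FA.PadicClassNumber
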