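import Mathlib.NumberTheory.NumberField.Units.DirichletTheorem
import Mathlib.FieldTheory.Galois.Abelian
import Mathlib.LinearAlgebra.Matrix.NonsingularInverse
import Mathlib.LinearAlgebra.Matrix.ToLinearEquiv
import Mathlib.RingTheory.RootsOfUnity.Basic

/-!
# Two regulators differ by the same algebraic factor

For a logarithm `Λ` on an algebraically closed field `L` with values in `F` (a map with an
embedding of `L` in `F`) the determinant of the logarithms of the conjugates of a fundamental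
system of units is `q` times a product of character sums of logarithms of units, `q ∈ L` not
depending on `Λ` (`exists_factor`).
-/

set_option autoImplicit false
set_option linter.unusedSectionVars false
set_option linter.style.haveILetI false

noncomputable section

open NumberField Finset Matrix

namespace FA.PadicClassNumber

/-- An embedding of `L` in `F` with a logarithm on `L`. -/
structure LogMap (L F : Type) [Field L] [Field F] where
  /-- The embedding. -/
  emb : L →+* F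
  /-- The logarithm. -/
  log : L → F
  log_mul : ∀ x y : L, x ≠ 0 → y ≠ 0 → log (x * y) = log x + log y

namespace LogMap

variable {L F : Type} [Field L] [Field F] (Λ : LogMap L F)

theorem log_one : Λ.log 1 = 0 := by
  have h := Λ.log_mul 1 1 one_ne_zero one_ne_zero
  rw [mul_one] at h
  exact add_eq_left.1 h.symm

theorem log_pow {x : L} (hx : x ≠ 0) : ∀ k : ℕ, Λ.log (x ^ k) = (k : F) * Λ.log x
  | 0 => by rw [pow_zero, Λ.log_one, Nat.cast_zero, zero_mul]
  | k + 1 => by
    rw [pow_succ, Λ.log_mul _ _ (pow_ne_zero k hx) hx, log_pow hx k, Nat.cast_succ, add_mul,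
      one_mul]

theorem log_inv {x : L} (hx : x ≠ 0) : Λ.log x⁻¹ = -Λ.log x := by
  have h := Λ.log_mul _ _ hx (inv_ne_zero hx)
  rw [mul_inv_cancel₀ hx, Λ.log_one] at h
  exact eq_neg_of_add_eq_zero_right h.symm

theorem log_div {x y : L} (hx : x ≠ 0) (hy : y ≠ 0) : Λ.log (x / y) = Λ.log x - Λ.log y := by
  rw [div_eq_mul_inv, Λ.log_mul _ _ hx (inv_ne_zero hy), Λ.log_inv hy, sub_eq_add_neg]

theorem log_zpow {x : L} (hx : x ≠ 0) (k : ℤ) : Λ.log (x ^ k) = (k : F) * Λ.log x := by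
  obtain ⟨m, rfl | rfl⟩ := Int.eq_nat_or_neg k
  · rw [zpow_natCast, Λ.log_pow hx, Int.cast_natCast]
  · rw [zpow_neg, zpow_natCast, Λ.log_inv (pow_ne_zero m hx), Λ.log_pow hx, Int.cast_neg,
      Int.cast_natCast, neg_mul]

theorem log_prod {ι : Type*} (s : Finset ι) (x : ι → L) (h : ∀ i ∈ s, x i ≠ 0) :
    Λ.log (∏ i ∈ s, x i) = ∑ i ∈ s, Λ.log (x i) := by
  classical
  induction s using Finset.induction_on with
  | empty => rw [prod_empty, sum_empty, Λ.log_one]
  | insert i s hi ih =>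
    have h' := fun j hj => h j (mem_insert_of_mem hj)
    rw [prod_insert hi, sum_insert hi,
      Λ.log_mul _ _ (h i (mem_insert_self _ _)) (prod_ne_zero_iff.2 h'), ih h']

theorem log_eq_zero_of_pow [CharZero F] {x : L} {k : ℕ} (hk : k ≠ 0) (h : x ^ k = 1) :
    Λ.log x = 0 := by
  have hx : x ≠ 0 := fun e => by rw [e, zero_pow hk] at h; exact zero_ne_one h
  have h1 := Λ.log_pow hx k
  rw [h, Λ.log_one, eq_comm, mul_eq_zero] at h1
  exact h1.resolve_left (Nat.cast_ne_zero.2 hk)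

end LogMap

variable {E : Type*} [Field E] [NumberField E] [IsGalois ℚ E] {L : Type} [Field L] (κ : E →+* L)

/-- The action on units. -/
def galUnit (σ : Gal(E/ℚ)) : (𝓞 E)ˣ →* (𝓞 E)ˣ :=
  Units.map (RingOfIntegers.mapRingHom (σ : E ≃ₐ[ℚ] E).toRingEquiv.toRingHom).toMonoidHom

theorem coe_galUnit (σ : Gal(E/ℚ)) (u : (𝓞 E)ˣ) :
    ((galUnit σ u : 𝓞 E) : E) = σ ((u : 𝓞 E) : E) := rfl

theorem galUnit_mul (σ τ : Gal(E/ℚ)) (u : (𝓞 E)ˣ) :
    galUnit (σ * τ) u = galUnit σ (galUnit τ u) :=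
  Units.ext (RingOfIntegers.ext rfl)

/-- The coordinates of a unit in the fundamental system. -/
def unitCoord (x : (𝓞 E)ˣ) (k : Fin (Units.rank E)) : ℤ :=
  (Units.exist_unique_eq_mul_prod E x).exists.choose.2 k

theorem eq_torsion_mul_prod (x : (𝓞 E)ˣ) : ∃ z ∈ Units.torsion E,
    x = z * ∏ k, Units.fundSystem E k ^ unitCoord x k :=
  ⟨_, (Units.exist_unique_eq_mul_prod E x).exists.choose.1.2,
    (Units.exist_unique_eq_mul_prod E x).exists.choose_spec⟩

variable {F : Type} [Field F] [CharZero F]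

/-- The logarithm of a conjugate. -/
def logUnit (Λ : LogMap L F) (σ : Gal(E/ℚ)) (u : (𝓞 E)ˣ) : F :=
  Λ.log (κ (σ ((u : 𝓞 E) : E)))

theorem logUnit_eq_sum (Λ : LogMap L F) (σ : Gal(E/ℚ)) (x : (𝓞 E)ˣ) :
    logUnit κ Λ σ x = ∑ k, (unitCoord x k : F) * logUnit κ Λ σ (Units.fundSystem E k) := by
  obtain ⟨z, hz, hx⟩ := eq_torsion_mul_prod x
  let g : (𝓞 E)ˣ →* Lˣ := Units.map
    ((κ.comp (σ : E ≃ₐ[ℚ] E).toRingEquiv.toRingHom).comp (algebraMap (𝓞 E) E)).toMonoidHom
  have hg : ∀ y, logUnit κ Λ σ y = Λ.log (g y : L) := fun y => rfl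
  have h0 : Λ.log (g z : L) = 0 := by
    have hfin : IsOfFinOrder z := hz
    exact Λ.log_eq_zero_of_pow hfin.orderOf_pos.ne' (by
      rw [← Units.val_pow_eq_pow_val, ← map_pow, pow_orderOf_eq_one, map_one, Units.val_one])
  conv_lhs => rw [hg, hx, map_mul, Units.val_mul, Λ.log_mul _ _ (g z).ne_zero (Units.ne_zero _), h0,
    zero_add, map_prod, Units.coe_prod, Λ.log_prod _ _ fun k _ => Units.ne_zero _]
  refine sum_congr rfl fun k _ => ?_
  rw [map_zpow, Units.val_zpow_eq_zpow_val, Λ.log_zpow (Units.ne_zero _), hg]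

/-- The character sums. -/
def charSum (Λ : LogMap L F) (c : Gal(E/ℚ) →* L) (y : (𝓞 E)ˣ) : F :=
  ∑ τ : Gal(E/ℚ), Λ.emb (c τ) * logUnit κ Λ τ y

variable (c : Fin (Units.rank E) → (Gal(E/ℚ) →* L)) (y : Fin (Units.rank E) → (𝓞 E)ˣ)
  (s : Fin (Units.rank E) → Gal(E/ℚ))

/-- The matrix of the units of the characters. -/
def coordMatrix : Matrix (Fin (Units.rank E)) (Fin (Units.rank E)) L :=
  of fun i k => ∑ τ : Gal(E/ℚ), c i τ * (unitCoord (galUnit τ (y i)) k : L)

/-- The matrix of the characters. -/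
def charMatrix : Matrix (Fin (Units.rank E)) (Fin (Units.rank E)) L :=
  of fun i j => c i (s j)⁻¹

/-- The matrix of the logarithms. -/
def logMatrix (Λ : LogMap L F) : Matrix (Fin (Units.rank E)) (Fin (Units.rank E)) F :=
  of fun k j => logUnit κ Λ (s j) (Units.fundSystem E k)

theorem coordMatrix_mul (Λ : LogMap L F) :
    (coordMatrix c y).map Λ.emb * logMatrix κ s Λ =
      diagonal (fun i => charSum κ Λ (c i) (y i)) * (charMatrix c s).map Λ.emb := by
  ext i j
  rw [diagonal_mul, mul_apply]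
  simp only [Matrix.map_apply, coordMatrix, charMatrix, logMatrix, of_apply, map_sum, map_mul,
    map_intCast, Finset.sum_mul, mul_assoc]
  rw [sum_comm]
  simp only [← mul_sum, ← logUnit_eq_sum κ Λ]
  rw [charSum, sum_mul]
  refine Fintype.sum_bijective (fun τ => s j * τ) (Group.mulLeft_bijective _) _ _ fun τ => ?_
  rw [show logUnit κ Λ (s j) (galUnit τ (y i)) = logUnit κ Λ (s j * τ) (y i) from rfl,
    mul_right_comm, ← map_mul, ← map_mul (c i)]
  congr 2
  rw [map_mul, map_mul, mul_right_comm, ← map_mul, mul_inv_cancel, map_one, one_mul]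

theorem det_logMatrix (Λ : LogMap L F) :
    Λ.emb (coordMatrix c y).det * (logMatrix κ s Λ).det =
      (∏ i, charSum κ Λ (c i) (y i)) * Λ.emb (charMatrix c s).det := by
  have h := congrArg Matrix.det (coordMatrix_mul κ c y s Λ)
  rwa [det_mul, det_mul, det_diagonal, ← RingHom.mapMatrix_apply, ← RingHom.map_det,
    ← RingHom.mapMatrix_apply, ← RingHom.map_det] at h

theorem det_charMatrix_ne_zero [CharZero L] (hc : Function.Injective c) (hc1 : ∀ i, c i ≠ 1)
    (hs : ∀ τ, τ ≠ 1 → ∃ j, s j = τ) : (charMatrix c s).det ≠ 0 := fun h => by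
  classical
  obtain ⟨v, hv, hvec⟩ := exists_vecMul_eq_zero_iff.2 h
  refine hv (funext fun i => ?_)
  set φ : Gal(E/ℚ) → L := fun τ => ∑ i, v i * c i τ
  have h1 : ∀ τ, τ ≠ 1 → φ τ = 0 := fun τ hτ => by
    obtain ⟨j, hj⟩ := hs τ⁻¹ (inv_ne_one.2 hτ)
    have h2 := congrFun hvec j
    simp only [vecMul, dotProduct, charMatrix, of_apply, hj, inv_inv, Pi.zero_apply] at h2
    exact h2
  have hsum : ∀ i, ∑ τ : Gal(E/ℚ), c i τ = 0 := fun i => by
    obtain ⟨τ₀, hτ₀⟩ : ∃ τ₀, c i τ₀ ≠ 1 := not_forall.1 fun h => hc1 i (MonoidHom.ext h)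
    have h2 : c i τ₀ * ∑ τ, c i τ = ∑ τ, c i τ := by
      rw [mul_sum]
      exact Fintype.sum_bijective (fun τ => τ₀ * τ) (Group.mulLeft_bijective _) _ _
        fun τ => (map_mul _ _ _).symm
    exact (mul_left_eq_self₀.1 h2).resolve_left hτ₀
  have h0 : φ 1 = 0 := by
    have h2 : ∑ τ, φ τ = φ 1 := Fintype.sum_eq_single 1 h1
    rw [← h2]
    simp only [φ]
    rw [sum_comm]
    simp [← mul_sum, hsum]
  have hli := (linearIndependent_monoidHom (Gal(E/ℚ)) L).comp c hc
  refine Fintype.linearIndependent_iff.1 hli v (funext fun τ => ?_) i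
  simp only [Finset.sum_apply, Pi.smul_apply, Function.comp_apply, smul_eq_mul, Pi.zero_apply]
  rcases eq_or_ne τ 1 with rfl | hτ
  · exact h0
  · exact h1 τ hτ

/-- **The factor does not depend on the logarithm.** -/
theorem exists_factor [CharZero L] (hc : Function.Injective c) (hc1 : ∀ i, c i ≠ 1)
    (hs : ∀ τ, τ ≠ 1 → ∃ j, s j = τ) {F₀ : Type} [Field F₀] [CharZero F₀] (Λ₀ : LogMap L F₀)
    (h₀ : ∀ i, charSum κ Λ₀ (c i) (y i) ≠ 0) :
    ∃ q : L, q ≠ 0 ∧ ∀ {F : Type} [Field F] [CharZero F] (Λ : LogMap L F),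
      (logMatrix κ s Λ).det = Λ.emb q * ∏ i, charSum κ Λ (c i) (y i) := by
  have hX := det_charMatrix_ne_zero c s hc hc1 hs
  have hW : (coordMatrix c y).det ≠ 0 := fun e => by
    have h := det_logMatrix κ c y s Λ₀
    rw [e, map_zero, zero_mul, eq_comm, mul_eq_zero] at h
    exact h.elim (prod_ne_zero_iff.2 fun i _ => h₀ i) ((map_ne_zero Λ₀.emb).2 hX)
  refine ⟨(charMatrix c s).det / (coordMatrix c y).det, div_ne_zero hX hW, fun {F} _ _ Λ => ?_⟩
  rw [map_div₀, div_mul_eq_mul_div, mul_comm (Λ.emb _) (∏ i, _), ← det_logMatrix κ c y s Λ,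
    mul_div_cancel_left₀ _ ((map_ne_zero Λ.emb).2 hW)]

end FA.PadicClassNumber
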