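import Fermat.Agent.PadicClassNumber.Algebraic
import Fermat.Agent.PadicDirichletL.NonVanish
import Fermat.Agent.ConductorDiscr.PlusPart
import Fermat.Agent.AbelianFE.CompletedProduct

/-!
# The `p`-adic class number formula

The regulators of `log |·|` and `log_p` are the same algebraic multiple of the products of the
character sums, and so are the products of `L(1, χ)` and of `L_p(1, χ)` up to the Euler factors:
so the complex class number formula gives the `p`-adic one (`padicL_prod_eq`).
-/

set_option autoImplicit false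
set_option linter.unusedSectionVars false
set_option linter.style.haveILetI false

noncomputable section

open NumberField Finset
open FA.GrossRegulator (iwasawaLog)
open FA.PadicDirichletL (branch)
open scoped Classical

namespace FA.PadicClassNumber

variable {p : ℕ} [hp : Fact p.Prime]

instance neZero_conductor_padic {n : ℕ} [NeZero n] (χ : DirichletCharacter ℂ_[p] n) :
    NeZero χ.conductor :=
  ⟨χ.conductor_ne_zero⟩

/-- The primitive additive character of level `f` of a root of unity. -/
def rootChar {f : ℕ} [NeZero f] {L : Type} [Field L] {η : L} (h : IsPrimitiveRoot η f) :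
    AddChar (ZMod f) L := AddChar.zmodChar f h.pow_eq_one

theorem rootChar_apply {f : ℕ} [NeZero f] {L : Type} [Field L] {η : L} (h : IsPrimitiveRoot η f)
    (a : ZMod f) : rootChar h a = η ^ a.val := AddChar.zmodChar_apply _ a

/-- The primitive character of a character trivial on the group of a real field. -/
theorem primitive_spec {N : ℕ} [NeZero N] (K : Type) [Field K] [NumberField K]
    [IsCyclotomicExtension {N} ℚ K] [IsAbelianGalois ℚ K] (E : IntermediateField ℚ K)
    [IsTotallyReal E] {χ : DirichletCharacter ℂ_[p] N} (hne : χ ≠ 1)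
    (hH : ∀ σ ∈ E.fixingSubgroup, χ (IsCyclotomicExtension.Rat.galEquivZMod N K σ) = 1) :
    χ.primitiveCharacter ≠ 1 ∧ 1 < χ.conductor ∧ χ.primitiveCharacter.Even := by
  refine ⟨fun h => hne ?_, ?_, ?_⟩
  · rw [← χ.changeLevel_primitiveCharacter]
    show DirichletCharacter.changeLevel χ.conductor_dvd_level χ.primitiveCharacter = 1
    rw [h, DirichletCharacter.changeLevel_one]
  · by_contra h
    refine hne (DirichletCharacter.eq_one_iff_conductor_eq_one.2 ?_)
    have := NeZero.pos χ.conductor
    omega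
  · show χ.primitiveCharacter (-1) = 1
    have h := hH _ (galEquiv_symm_neg_one_mem N K E)
    rw [MulEquiv.apply_symm_apply, ← χ.changeLevel_primitiveCharacter,
      DirichletCharacter.changeLevel_eq_cast_of_dvd _ χ.conductor_dvd_level,
      Units.val_neg, Units.val_one, ← ZMod.castHom_apply (h := χ.conductor_dvd_level), map_neg,
      map_one] at h
    exact h

/-- What one character contributes. -/
theorem exists_local {N : ℕ} [NeZero N] (hNp : N.Coprime p) (K : Type) [Field K] [NumberField K]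
    [IsCyclotomicExtension {N} ℚ K] [IsAbelianGalois ℚ K] (E : IntermediateField ℚ K)
    [IsGalois ℚ E] [IsTotallyReal E] (κ : K →+* AlgNum p) {χ : DirichletCharacter ℂ_[p] N}
    (hne : χ ≠ 1)
    (hH : ∀ σ ∈ E.fixingSubgroup, χ (IsCyclotomicExtension.Rat.galEquivZMod N K σ) = 1) :
    ∃ (y : (𝓞 E)ˣ) (c : AlgNum p)
      (hθ : ∀ σ ∈ E.fixingSubgroup,
        (algChar χ)⁻¹ (IsCyclotomicExtension.Rat.galEquivZMod N K σ) = 1),
      c ≠ 0 ∧ charSum (κ.comp (algebraMap E K)) (logComplex p) (charE N K E _ hθ) y ≠ 0 ∧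
      (toC p c * charSum (κ.comp (algebraMap E K)) (logComplex p) (charE N K E _ hθ) y =
        DirichletCharacter.LFunction
          (DirichletCharacter.primitiveCharacter ((algChar χ).ringHomComp (toC p))) 1) ∧
      branch χ.primitiveCharacter 0 0 = (1 - χ.primitiveCharacter p / (p : ℂ_[p])) *
        (toPadic p c * charSum (κ.comp (algebraMap E K)) (logPadic p) (charE N K E _ hθ) y) := by
  set f := χ.conductor with hfdef
  set χ₀ := χ.primitiveCharacter
  have hfN : f ∣ N := χ.conductor_dvd_level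
  have hprim : χ₀.IsPrimitive := χ.primitiveCharacter_isPrimitive
  obtain ⟨hne₀, hf1, hev⟩ : χ₀ ≠ 1 ∧ 1 < f ∧ χ₀.Even := primitive_spec K E hne hH
  have hfp : f.Coprime p := hNp.coprime_dvd_left hfN
  set θ₀ := (algChar χ₀)⁻¹ with hθ₀
  have hchange : DirichletCharacter.changeLevel hfN θ₀ = (algChar χ)⁻¹ := by
    rw [hθ₀, map_inv, algChar_changeLevel hfN, χ.changeLevel_primitiveCharacter]
  have hθ : ∀ σ ∈ E.fixingSubgroup, DirichletCharacter.changeLevel hfN θ₀
      (IsCyclotomicExtension.Rat.galEquivZMod N K σ : ZMod N) = 1 := fun σ hσ => by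
    rw [hchange, MulChar.inv_apply_eq_inv', show algChar χ (IsCyclotomicExtension.Rat.galEquivZMod
      N K σ : ZMod N) = 1 from Subtype.ext (hH σ hσ), inv_one]
  have hθne : θ₀ ≠ 1 := inv_ne_one.2 fun h => hne₀ (algChar_eq_one_iff.1 h)
  obtain ⟨y, m, hm, hy⟩ := exists_unit N K E κ hfN hθne hθ
  set η := κ (zetaDiv N K f)
  have hη : IsPrimitiveRoot η f := (zetaDiv_spec N K hfN).map_of_injective κ.injective
  have hηp : IsPrimitiveRoot (toPadic p η) f := hη.map_of_injective (toPadic p).injective
  have hηc : IsPrimitiveRoot (toC p η) f := hη.map_of_injective (toC p).injective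
  have hψp : (rootChar hηp).IsPrimitive := AddChar.zmodChar_primitive_of_primitive_root f hηp
  have hψc : (rootChar hηc).IsPrimitive := AddChar.zmodChar_primitive_of_primitive_root f hηc
  set τ := gaussSum (algChar χ₀) (rootChar hη)
  have hτp : toPadic p τ = gaussSum χ₀ (rootChar hηp) := by
    simp only [τ, gaussSum, map_sum]
    exact sum_congr rfl fun a _ => by
      rw [map_mul, rootChar_apply, rootChar_apply, map_pow, toPadic_algChar]
  set χc : DirichletCharacter ℂ f := (algChar χ₀).ringHomComp (toC p) with hχc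
  have hprimc : χc.IsPrimitive :=
    isPrimitive_ringHomComp (toC p) (isPrimitive_algChar hprim)
  have hevc : χc.Even := by
    show toC p (algChar χ₀ (-1)) = 1
    rw [show algChar χ₀ (-1) = 1 from Subtype.ext hev, map_one]
  have hτc : toC p τ = gaussSum χc (rootChar hηc) := by
    simp only [τ, gaussSum, map_sum]
    exact sum_congr rfl fun a _ => by
      rw [map_mul, rootChar_apply, rootChar_apply, map_pow, hχc, MulChar.ringHomComp_apply]
  have hτ0 : τ ≠ 0 := fun h => by
    have h1 := FA.PadicDirichletL.gaussSum_inv_mul hprim hψp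
    rw [← hτp, h, map_zero, mul_zero] at h1
    exact mul_ne_zero (IsUnit.map _ isUnit_one.neg).ne_zero
      (Nat.cast_ne_zero.2 (NeZero.ne f)) h1.symm
  have hf0 : (f : AlgNum p) ≠ 0 := Nat.cast_ne_zero.2 (NeZero.ne f)
  set c := -(τ / (f : AlgNum p)) / m with hc
  have hsumP : ∑ a : ZMod f, toPadic p (θ₀ a) * iwasawaLog p (toPadic p (1 - η ^ a.val)) =
      ∑ a : ZMod f, χ₀⁻¹ a * iwasawaLog p (1 - rootChar hηp (-a)) := by
    have hev' : χ₀⁻¹.Even := by
      show χ₀⁻¹ (-1) = 1
      rw [MulChar.inv_apply_eq_inv', show χ₀ (-1) = 1 from hev, inv_one]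
    refine Fintype.sum_bijective (fun a : ZMod f => -a) neg_involutive.bijective _ _ fun a => ?_
    rw [neg_neg, hev'.eval_neg, hθ₀, MulChar.inv_apply_eq_inv', map_inv₀, toPadic_algChar,
      MulChar.inv_apply_eq_inv', rootChar_apply, map_sub, map_one, map_pow]
  have hsumC : ∑ a : ZMod f, toC p (θ₀ a) * (Real.log ‖toC p (1 - η ^ a.val)‖ : ℂ) =
      ∑ a : ZMod f, χc⁻¹ a * (Real.log ‖1 - rootChar hηc a‖ : ℂ) :=
    sum_congr rfl fun a _ => by
      rw [hθ₀, MulChar.inv_apply_eq_inv', map_inv₀, MulChar.inv_apply_eq_inv', hχc,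
        MulChar.ringHomComp_apply, rootChar_apply, map_sub, map_one, map_pow]
  have hθ' : ∀ σ ∈ E.fixingSubgroup,
      (algChar χ)⁻¹ (IsCyclotomicExtension.Rat.galEquivZMod N K σ) = 1 := fun σ hσ => by
    rw [← hchange]
    exact hθ σ hσ
  have hcharE : charE N K E _ hθ' = charE N K E _ hθ := by
    congr 1
    exact hchange.symm
  have hC : charSum (κ.comp (algebraMap E K)) (logComplex p) (charE N K E _ hθ') y =
      toC p m * ∑ a : ZMod f, χc⁻¹ a * (Real.log ‖1 - rootChar hηc a‖ : ℂ) := by
    rw [hcharE, hy (logComplex p), ← hsumC]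
    rfl
  have hP : charSum (κ.comp (algebraMap E K)) (logPadic p) (charE N K E _ hθ') y =
      toPadic p m * ∑ a : ZMod f, χ₀⁻¹ a * iwasawaLog p (1 - rootChar hηp (-a)) := by
    rw [hcharE, hy (logPadic p), ← hsumP]
    rfl
  refine ⟨y, c, hθ', ?_, ?_, ?_, ?_⟩
  · exact div_ne_zero (neg_ne_zero.2 (div_ne_zero hτ0 hf0)) hm
  · rw [hC]
    refine mul_ne_zero ((map_ne_zero (toC p)).2 hm) ?_
    have hevc' : χc⁻¹.Even := by
      show χc⁻¹ (-1) = 1
      rw [MulChar.inv_apply_eq_inv', show χc (-1) = 1 from hevc, inv_one]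
    exact FA.PadicDirichletL.sum_log_norm_ne_zero hf1
      ((DirichletCharacter.conductor_inv χc).trans hprimc) hevc' hψc
  · let Φ : (q : ℕ) → DirichletCharacter ℂ q → ℂ := fun q ψ =>
      if h : q ≠ 0 then haveI : NeZero q := ⟨h⟩; DirichletCharacter.LFunction ψ 1 else 0
    have hΦ : ∀ (q : ℕ) [NeZero q] (ψ : DirichletCharacter ℂ q),
        Φ q ψ = DirichletCharacter.LFunction ψ 1 := fun q _ ψ => dif_pos (NeZero.ne q)
    set χN : DirichletCharacter ℂ N := (algChar χ).ringHomComp (toC p)
    have hlevel : DirichletCharacter.changeLevel hfN χc = χN := by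
      rw [hχc, ringHomComp_changeLevel (toC p) hfN, algChar_changeLevel hfN,
        χ.changeLevel_primitiveCharacter]
    haveI : NeZero χN.conductor := ⟨χN.conductor_ne_zero⟩
    rw [← hΦ χN.conductor, FA.AbelianFE.primitive_unique hfN hprimc hlevel Φ, hΦ f,
      FA.PadicDirichletL.lFunction_one_even hf1 hprimc hevc hψc, hC, hc, map_div₀, map_neg,
      map_div₀, map_natCast (toC p), hτc, ← mul_assoc,
      div_mul_cancel₀ _ ((map_ne_zero (toC p)).2 hm)]
  · rw [FA.PadicDirichletL.branch_zero hfp hne₀ hprim hf1 hψp, hP, hc, map_div₀, map_neg,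
      map_div₀, map_natCast (toPadic p), hτp,
      ← mul_assoc (-(gaussSum χ₀ (rootChar hηp) / (f : ℂ_[p])) / _),
      div_mul_cancel₀ _ ((map_ne_zero (toPadic p)).2 hm)]
    ring

variable (N : ℕ) [NeZero N] (K : Type) [Field K] [NumberField K] [IsCyclotomicExtension {N} ℚ K]
  [IsAbelianGalois ℚ K] (E : IntermediateField ℚ K) [IsGalois ℚ E]

/-- The characters trivial on the group of `E`, other than `1`. -/
def charSet : Finset (DirichletCharacter ℂ_[p] N) :=
  univ.filter fun χ => χ ≠ 1 ∧
    ∀ σ ∈ E.fixingSubgroup, χ (IsCyclotomicExtension.Rat.galEquivZMod N K σ) = 1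

theorem card_charSet_add_one : (charSet (p := p) N K E).card + 1 = Module.finrank ℚ E := by
  rw [← IsCyclotomicExtension.Rat.card_intermediateFieldEquivSubgroupChar N K ℂ_[p] E,
    ← card_insert_of_notMem (show (1 : DirichletCharacter ℂ_[p] N) ∉ charSet N K E by
      simp [charSet]), ← Nat.card_eq_finsetCard]
  refine Nat.card_congr (Equiv.subtypeEquivRight fun χ => ?_)
  rw [IsCyclotomicExtension.Rat.mem_intermediateFieldEquivSubgroupChar_iff, mem_insert, charSet,
    mem_filter]
  by_cases h : χ = 1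
  · subst h
    exact iff_of_true (Or.inl rfl) fun σ _ => MulChar.one_apply_coe _
  · simp [h]

/-- The `ℂ_p`-regulator. -/
def padicRegulator (ι : E →+* ℂ_[p]) (e : Fin (Units.rank E) ≃ {σ : Gal(E/ℚ) // σ ≠ 1}) : ℂ_[p] :=
  (Matrix.of fun k j : Fin (Units.rank E) =>
    iwasawaLog p (ι ((e j : Gal(E/ℚ)) ((Units.fundSystem E k : 𝓞 E) : E)))).det

theorem exists_embedding (ι : E →+* ℂ_[p]) :
    ∃ κ : K →+* AlgNum p, ∀ x : E, toPadic p (κ (algebraMap E K x)) = ι x := by
  letI := ι.toAlgebra
  let f : K →ₐ[E] ℂ_[p] := IsAlgClosed.lift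
  have h : ∀ x, f x ∈ AlgNum p := fun x => mem_algebraicClosure_iff.2
    (((IsIntegral.of_finite ℚ x).map (f.restrictScalars ℚ)).isAlgebraic)
  exact ⟨f.toRingHom.codRestrict (AlgNum p) h, fun x => f.commutes x⟩

/-- **The formula.** -/
theorem padicL_prod_eq (hNp : N.Coprime p) [IsTotallyReal E] (ι : E →+* ℂ_[p])
    (e : Fin (Units.rank E) ≃ {σ : Gal(E/ℚ) // σ ≠ 1}) :
    ∃ s : ℂ_[p], s ^ 2 = (discr E : ℂ_[p]) ∧
      ∏ χ ∈ charSet N K E, branch χ.primitiveCharacter 0 0 =
        (∏ χ ∈ charSet (p := p) N K E, (1 - χ.primitiveCharacter p / (p : ℂ_[p]))) *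
          (2 ^ Units.rank E * (classNumber E : ℂ_[p]) * padicRegulator K E ι e) / s := by
  obtain ⟨κ, hκ⟩ := exists_embedding K E ι
  set X := charSet (p := p) N K E with hXdef
  have hX : ∀ {χ}, χ ∈ X → χ ≠ 1 ∧
      ∀ σ ∈ E.fixingSubgroup, χ (IsCyclotomicExtension.Rat.galEquivZMod N K σ) = 1 :=
    fun h => (mem_filter.1 h).2
  have hcard : X.card = Units.rank E := by
    have h1 := card_charSet_add_one (p := p) N K E
    have h2 := rank_add_one (E := E)
    rw [← Nat.card_eq_fintype_card, IsGalois.card_aut_eq_finrank] at h2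
    exact Nat.add_right_cancel (h1.trans h2.symm)
  let idx : Fin (Units.rank E) ≃ X := (Fintype.equivFinOfCardEq
    (by rw [Fintype.card_coe, hcard])).symm
  choose y c hθ hc0 hS hL hP using fun i =>
    exists_local hNp K E κ (hX (idx i).2).1 (hX (idx i).2).2
  set κE := κ.comp (algebraMap E K)
  set ch : Fin (Units.rank E) → (Gal(E/ℚ) →* AlgNum p) := fun i => charE N K E _ (hθ i)
  set sv : Fin (Units.rank E) → Gal(E/ℚ) := fun j => (e j : Gal(E/ℚ))
  obtain ⟨q, hq, hdet⟩ := exists_factor κE ch y sv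
    (fun i i' h => idx.injective (Subtype.ext (algChar_injective (inv_injective
      (charE_injective N K E (hθ i) (hθ i') h)))))
    (fun i => charE_ne_one N K E _ (hθ i) (inv_ne_one.2 fun h => (hX (idx i).2).1
      (algChar_eq_one_iff.1 h)))
    (fun τ hτ => ⟨e.symm ⟨τ, hτ⟩, by simp [sv]⟩) (logComplex p) hS
  -- the complex side
  set D : ℝ := (Matrix.of fun k j : Fin (Units.rank E) =>
    Real.log ‖((toC p).comp κE) ((e j : Gal(E/ℚ)) ((Units.fundSystem E k : 𝓞 E) : E))‖).det
  have hD : |D| = Units.regulator E := regulator_eq _ e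
  have hDC : (D : ℂ) = toC p q * ∏ i, charSum κE (logComplex p) (ch i) (y i) := by
    refine Eq.trans ?_ (hdet (logComplex p))
    exact RingHom.map_det Complex.ofRealHom _
  have hres : (dedekindZeta_residue E : ℂ) =
      ∏ i, DirichletCharacter.LFunction
        (DirichletCharacter.primitiveCharacter
          ((algChar (idx i : DirichletCharacter ℂ_[p] N)).ringHomComp (toC p))) 1 := by
    set Xc := univ.filter fun χ : DirichletCharacter ℂ N => χ ∈ FA.AbelianZeta.fieldChars N K E
    have h1 : (1 : DirichletCharacter ℂ N) ∈ Xc :=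
      mem_filter.2 ⟨mem_univ _, Subgroup.one_mem _⟩
    rw [FA.AbelianZeta.residue_eq_prod h1 fun s hs =>
      FA.ConductorDiscr.dedekindZeta_eq_prodL K E (RingEquiv.refl E) hs]
    have hinj : Function.Injective fun i => MulChar.ringHomComp
        (algChar (idx i : DirichletCharacter ℂ_[p] N)) (toC p) := fun i i' h =>
      idx.injective (Subtype.ext (algChar_injective (MulChar.ext fun u => (toC p).injective
        (DFunLike.congr_fun h (u : ZMod N)))))
    have himg : Xc.erase 1 = univ.image fun i => MulChar.ringHomComp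
        (algChar (idx i : DirichletCharacter ℂ_[p] N)) (toC p) := by
      refine (eq_of_subset_of_card_le (fun χ hχ => ?_) ?_).symm
      · obtain ⟨i, -, rfl⟩ := mem_image.1 hχ
        refine mem_erase.2 ⟨ringHomComp_ne_one _ fun h => (hX (idx i).2).1
          (algChar_eq_one_iff.1 h), mem_filter.2 ⟨mem_univ _,
            (FA.AbelianZeta.mem_fieldChars_iff N K E).2 fun σ hσ => ?_⟩⟩
        rw [MulChar.ringHomComp_apply, show algChar (idx i : DirichletCharacter ℂ_[p] N)
          (IsCyclotomicExtension.Rat.galEquivZMod N K σ : ZMod N) = 1 from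
            Subtype.ext ((hX (idx i).2).2 σ hσ), map_one]
      · rw [card_image_of_injective _ hinj, card_univ, Fintype.card_fin, card_erase_of_mem h1,
          FA.ConductorDiscr.card_chars_eq K E (RingEquiv.refl E)]
        have := card_charSet_add_one (p := p) N K E
        rw [← hXdef, hcard] at this
        omega
    rw [himg, prod_image fun a _ b _ h => hinj h]
  simp only [← hL, prod_mul_distrib, ← map_prod] at hres
  have hd : (0 : ℝ) < (discr E : ℝ) := by exact_mod_cast discr_pos
  have hprodS : ∏ i, charSum κE (logComplex p) (ch i) (y i) ≠ 0 :=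
    prod_ne_zero_iff.2 fun i _ => hS i
  have hprodc : ∏ i, c i ≠ 0 := prod_ne_zero_iff.2 fun i _ => hc0 i
  set s := 2 ^ Units.rank E * (classNumber E : AlgNum p) * q / ∏ i, c i with hs
  have hs2 : s ^ 2 = (discr E : AlgNum p) := by
    refine (toC p).injective ?_
    have hkey : toC p (∏ i, c i) * toC p s = 2 ^ Units.rank E * (classNumber E : ℂ) * toC p q := by
      rw [← map_mul, hs, mul_div_cancel₀ _ hprodc, map_mul, map_mul, map_pow, map_natCast,
        map_ofNat]
    have hsqrt : (Real.sqrt (discr E : ℝ) : ℂ) ^ 2 = (discr E : ℂ) := by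
      rw [← Complex.ofReal_pow, Real.sq_sqrt hd.le, Complex.ofReal_intCast]
    have hR : (Units.regulator E : ℂ) ^ 2 =
        (toC p q * ∏ i, charSum κE (logComplex p) (ch i) (y i)) ^ 2 := by
      rw [← hDC, ← hD, ← Complex.ofReal_pow, sq_abs, Complex.ofReal_pow]
    rw [residue_eq] at hres
    push_cast at hres
    rw [div_eq_iff (Complex.ofReal_ne_zero.2 (Real.sqrt_ne_zero'.2 hd))] at hres
    have hsq := congrArg (· ^ 2) hres
    simp only [mul_pow, hR, hsqrt] at hsq
    rw [map_pow, map_intCast]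
    refine mul_left_cancel₀ (pow_ne_zero 2 (mul_ne_zero ((map_ne_zero (toC p)).2 hprodc) hprodS)) ?_
    simp only [mul_pow]
    linear_combination
      (toC p (∏ i, c i) * toC p s + 2 ^ Units.rank E * (classNumber E : ℂ) * toC p q) *
        (∏ i, charSum κE (logComplex p) (ch i) (y i)) ^ 2 * hkey + hsq
  have hs0 : s ≠ 0 := fun h => by
    rw [h, zero_pow two_ne_zero, eq_comm, Int.cast_eq_zero] at hs2
    exact discr_ne_zero E hs2
  refine ⟨toPadic p s, by rw [← map_pow, hs2, map_intCast], ?_⟩
  have hprodX : ∀ g : DirichletCharacter ℂ_[p] N → ℂ_[p], ∏ χ ∈ X, g χ = ∏ i, g (idx i) :=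
    fun g => by rw [← prod_coe_sort, ← idx.prod_comp]
  rw [hprodX, hprodX, prod_congr rfl fun i _ => hP i, prod_mul_distrib, prod_mul_distrib,
    ← map_prod]
  have hR : padicRegulator K E ι e =
      toPadic p q * ∏ i, charSum κE (logPadic p) (ch i) (y i) := by
    refine Eq.trans (congrArg Matrix.det (Matrix.ext fun k j => ?_)) (hdet (logPadic p))
    simp only [Matrix.of_apply, logMatrix, logUnit, sv]
    rw [← hκ]
    rfl
  rw [hR, eq_div_iff ((map_ne_zero (toPadic p)).2 hs0)]
  have hkey : toPadic p (∏ i, c i) * toPadic p s =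
      2 ^ Units.rank E * (classNumber E : ℂ_[p]) * toPadic p q := by
    rw [← map_mul, hs, mul_div_cancel₀ _ hprodc, map_mul, map_mul, map_pow, map_natCast,
      map_ofNat]
  linear_combination (∏ i, (1 - (idx i : DirichletCharacter ℂ_[p] N).primitiveCharacter p /
    (p : ℂ_[p]))) * (∏ i, charSum κE (logPadic p) (ch i) (y i)) * hkey

/-- The regulator is not zero. -/
theorem padicRegulator_ne_zero (hNp : N.Coprime p) [IsTotallyReal E] (ι : E →+* ℂ_[p])
    (e : Fin (Units.rank E) ≃ {σ : Gal(E/ℚ) // σ ≠ 1}) : padicRegulator K E ι e ≠ 0 := fun h => by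
  obtain ⟨s, -, hs⟩ := padicL_prod_eq N K E hNp ι e
  rw [h, mul_zero, mul_zero, zero_div, prod_eq_zero_iff] at hs
  obtain ⟨χ, hχ, h0⟩ := hs
  obtain ⟨hne, hf1, hev⟩ := primitive_spec K E (mem_filter.1 hχ).2.1 (mem_filter.1 hχ).2.2
  exact FA.PadicDirichletL.branch_zero_ne_zero (hNp.coprime_dvd_left χ.conductor_dvd_level) hne
    χ.primitiveCharacter_isPrimitive hf1 hev h0

end FA.PadicClassNumber
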